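import Fermat.Agent.ML.Low.Rho.Main
import Fermat.Agent.ML.Ihara.Theta
import Fermat.Agent.RIB.Hard2.MPAbs
import Fermat.Agent.RIB.TWLoc.Rho
import Fermat.Agent.S36.Kum.Wire

/-!
# ML / AT-2 / P5 / Four : the step `q² → q` of the level when `p ∤ q² - 1` and `rbar0` is unramified at `q`

(gap (G1) of the amendment to the section AT-2; it is also the shortcut (E)(i) of LOWER(A).)

* `geo36_explicit` : `S36.Kum.geo36_of_hasDatum` with its EXPLICIT exponent `(q² - 1)²` (any level `M₁ q`, `q ‖ M₁`, no rigidity,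
  `q = 2` allowed): an inertia-fixed `p`-power torsion class of `J₀(M₁ q)` which is killed by the two push-forwards to `J₀(M₁)` is
  killed by `(q² - 1)²`.
* `exists_inertia_fixed` : if `W(L) ≠ 0` and `rbar0` is unramified at `q`, then `W(L)` contains a nonzero class fixed by all the
  inertia groups at `q` (the socle of `W(L)` over the ring of (RHO)).
* `ws_sq_eq_bot` : `¬ Ram rbar0 q`, `p ∤ q² - 1`, `q ‖ M₁`, `W(M₁) = 0` `⟹` `W(M₁ q) = 0`.
* `ws_four_eq_bot` : the case `q = 2`, `p ≠ 3` : `W(2M) = 0 ⟹ W(4M) = 0`.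
-/

set_option autoImplicit false
set_option linter.unusedSectionVars false
set_option linter.style.haveILetI false

noncomputable section

open AlgebraicCurve ModularCurve IsLocalRing

namespace Fermat.Agent.ML.At2

open Fermat.Agent.RIB Fermat.Agent.ML.Low

local notation "Qbar" => AlgebraicClosure ℚ
local notation "GQ" => (AlgebraicClosure ℚ ≃ₐ[ℚ] AlgebraicClosure ℚ)
local notation "M₂" => Matrix (Fin 2) (Fin 2)

/-- `Geo36` with its explicit exponent. -/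
theorem geo36_explicit (M₁ q p : ℕ) [NeZero M₁] [NeZero q] (hq : q.Prime)
    (hp : p.Prime) (hqp : q ≠ p) (hqM : q ∣ M₁) (hq2 : ¬ q ^ 2 ∣ M₁)
    (A : ValuationSubring Qbar) (hA : A.LiesOverPrime q)
    (y : JZero (M₁ * q)) (hy : ∃ n : ℕ, p ^ n • y = 0)
    (hI : ∀ τ ∈ A.inertiaSubgroupIn ℚ, τ • y = y)
    (hA' : SS.pushA M₁ q y = 0) (hB' : SS.pushB M₁ q y = 0) : ((q ^ 2 - 1) ^ 2) • y = 0 := by
  refine S36.Kum.geo36_of_kum36 M₁ q p _ hq hp hqp.symm hqM hq2 A hA ?_ y hy hI hA' hB'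
  intro M' _ hqM' haux m hm
  obtain ⟨ζ, hζ⟩ := HasEnoughRootsOfUnity.exists_primitiveRoot Qbar q
  have hζ0 : ζ ≠ 0 := hζ.ne_zero hq.ne_zero
  let C : S36.Ctx :=
    { A := A, q := q, M := M', hq := hq, hA := hA, hM := NeZero.ne M', hqM := hqM'
      ζ := Units.mk0 ζ hζ0
      hζ := by rw [← IsPrimitiveRoot.coe_units_iff]; exact hζ }
  obtain ⟨D, N, hDq, hα, hβ⟩ := S36.Kum.hasDatum C haux
  exact S36.Kum.kum36_of_datum C D N hDq hα hβ m hm

section Soc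

variable {R V : Type*} [CommRing R] [AddCommGroup V] [Module R V]

/-- a matrix with entries in `I` kills (through `Φ`) the `I`-torsion. -/
theorem phi_apply_eq_zero (Φ : M₂ R →ₐ[R] Module.End R V) (X : M₂ R) (x : V)
    (h : ∀ i j, X i j • x = 0) : Φ X x = 0 := by
  have hX : X = ∑ i, ∑ j, X i j • Matrix.single i j (1 : R) := by
    ext a b
    simp [Matrix.sum_apply, Matrix.single_apply, Fin.sum_univ_two]
    fin_cases a <;> fin_cases b <;> simp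
  rw [hX]
  simp only [map_sum, map_smul, LinearMap.sum_apply, LinearMap.smul_apply]
  refine Finset.sum_eq_zero fun i _ => Finset.sum_eq_zero fun j _ => ?_
  rw [← map_smul, h i j, map_zero]

end Soc

variable {p : ℕ} [Fact p.Prime] {T : Finset ℕ} {θ : ℕ → ℤ} {rbar0 : GQ →* M₂ (ZMod p)}

/-- the socle of `W(L)` is fixed by the inertia groups at the primes where `rbar0` is unramified. -/
theorem exists_inertia_fixed (C : MCtx p T θ rbar0) (L : ℕ) [NeZero L]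
    (hL : ∀ r : ℕ, r.Prime → r ∣ L * p → r ∈ T) (hW : WS L p (↑T : Set ℕ) θ ≠ ⊥) :
    ∃ x ∈ WS L p (↑T : Set ℕ) θ, x ≠ 0 ∧ ∀ g : GQ, rbar0 g = 1 → g • x = x := by
  obtain ⟨R, _, _, _, _, _, π0, ρ, Φ, H⟩ := rhoOut C T (Finset.Subset.refl T) L hL hW
  obtain ⟨x₀, hx₀⟩ : ∃ x₀ : ↥(WS L p (↑T : Set ℕ) θ), x₀ ≠ 0 := by
    haveI : Nontrivial ↥(WS L p (↑T : Set ℕ) θ) := (AddSubgroup.nontrivial_iff_ne_bot _).2 hW
    exact exists_ne 0
  obtain ⟨N, hN⟩ := H.exists_pow_eq_bot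
  obtain ⟨x, hx0, hx⟩ := Hard2.exists_ne_zero_socle hN hx₀
  refine ⟨x.1, x.2, fun h => hx0 (Subtype.ext h), fun g hg => ?_⟩
  have h1 : Φ (ρ g - 1) x = 0 := phi_apply_eq_zero Φ _ x fun i j => hx _ (H.ent hg i j)
  rw [map_sub, map_one, LinearMap.sub_apply, H.act, Module.End.one_apply, sub_eq_zero] at h1
  exact congrArg Subtype.val h1

/-- **the step `q² → q`** when `p ∤ q² - 1` and `rbar0` is unramified at `q`. -/
theorem ws_sq_eq_bot (C : MCtx p T θ rbar0) {M₁ q : ℕ} [NeZero M₁] [NeZero q] (hq : q.Prime)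
    (hqp : q ≠ p) (hqM : q ∣ M₁) (hq2 : ¬ q ^ 2 ∣ M₁) (hcop : ¬ p ∣ q ^ 2 - 1)
    (hram : ¬ Ram rbar0 q) (hlev : ∀ r : ℕ, r.Prime → r ∣ M₁ * q * p → r ∈ T)
    (h : WS M₁ p (↑T : Set ℕ) θ = ⊥) : WS (M₁ * q) p (↑T : Set ℕ) θ = ⊥ := by
  by_contra hW
  have hp : p.Prime := Fact.out
  obtain ⟨x, hxW, hx0, hfix⟩ := exists_inertia_fixed C (M₁ * q) hlev hW
  obtain ⟨A, hA⟩ := Fermat.Agent.S54.exists_liesOverPrime hq
  have hS : ∀ r : ℕ, r.Prime → r ∉ (↑T : Set ℕ) → ¬ r ∣ M₁ * q * p := fun r hr hrT hd =>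
    hrT (Finset.mem_coe.2 (hlev r hr hd))
  have hpa : SS.pushA M₁ q x = 0 := by
    have h1 : SS.pushA M₁ q x ∈ WS M₁ p (↑T : Set ℕ) θ :=
      map_mem_WS (SS.pushA M₁ q) (fun y hy => pushA_mem_thetaPart hS hy) hxW
    rw [h] at h1
    exact AddSubgroup.mem_bot.1 h1
  have hpb : SS.pushB M₁ q x = 0 := by
    have h1 : SS.pushB M₁ q x ∈ WS M₁ p (↑T : Set ℕ) θ :=
      map_mem_WS (SS.pushB M₁ q) (fun y hy => pushB_mem_thetaPart hS hy) hxW
    rw [h] at h1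
    exact AddSubgroup.mem_bot.1 h1
  have h9 := geo36_explicit M₁ q p hq hp hqp hqM hq2 A hA x ⟨1, by rw [pow_one]; exact hxW.2⟩
    (fun τ hτ => hfix τ (unram_of_not_ram hram A hA τ hτ)) hpa hpb
  have hc : Nat.Coprime ((q ^ 2 - 1) ^ 2) p :=
    Nat.Coprime.pow_left 2 ((Nat.Coprime.symm ((Nat.Prime.coprime_iff_not_dvd hp).2 hcop)))
  apply hx0
  have h2 : (Nat.gcd ((q ^ 2 - 1) ^ 2) p : ℤ) • x = 0 := by
    have e1 : (((q ^ 2 - 1) ^ 2 : ℕ) : ℤ) • x = 0 := by rw [natCast_zsmul, h9]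
    have e2 : ((p : ℕ) : ℤ) • x = 0 := by rw [natCast_zsmul, hxW.2]
    rw [Nat.gcd_eq_gcd_ab, add_zsmul, mul_comm (((q ^ 2 - 1) ^ 2 : ℕ) : ℤ), mul_zsmul, e1,
      zsmul_zero, zero_add, mul_comm ((p : ℕ) : ℤ), mul_zsmul, e2, zsmul_zero]
  rw [hc] at h2
  simpa using h2

/-- **(G1)** `p ≠ 3`, `rbar0` unramified at `2` : `W(2M) = 0 ⟹ W(4M) = 0`. -/
theorem ws_four_eq_bot (C : MCtx p T θ rbar0) (hp3 : p ≠ 3) {M : ℕ} [NeZero M] (hM : Odd M)
    (hram : ¬ Ram rbar0 2) (hlev : ∀ r : ℕ, r.Prime → r ∣ M * 2 * 2 * p → r ∈ T)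
    (h : WS (M * 2) p (↑T : Set ℕ) θ = ⊥) : WS (M * 2 * 2) p (↑T : Set ℕ) θ = ⊥ := by
  have hp : p.Prime := Fact.out
  refine ws_sq_eq_bot C Nat.prime_two (Ne.symm C.hp2) (Dvd.intro_left M rfl) ?_ ?_ hram hlev h
  · rintro ⟨c, hc⟩
    have : 2 ∣ M := ⟨c, by omega⟩
    exact (Nat.not_even_iff_odd.2 hM) (even_iff_two_dvd.2 this)
  · intro hd
    have h3 : p ∣ 3 := by simpa using hd
    exact hp3 ((Nat.prime_dvd_prime_iff_eq hp Nat.prime_three).1 h3)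

end Fermat.Agent.ML.At2
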